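import Fermat.Agent.RelPicard.Bridge.Glue
import Fermat.Agent.RelPicard.Defs

/-!
# Classes of invertible modules and classes of cocycles

Isomorphism classes of invertible modules are the classes of cocycles, compatibly with pullback;
classes of rigidified line bundles are the classes of cocycles trivial along the section.

Main declarations: `classOf`, `classOf_eq_iff`, `classesEquiv`; used by `CutBridge`.
-/

set_option autoImplicit false

universe u

open CategoryTheory CategoryTheory.Limits AlgebraicGeometry AlgebraicGeometry.RelPicard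
  NeronModelInfra

noncomputable section

namespace FLTAgent.RelPicard

variable {X Y : Scheme.{u}}

namespace Cocycle

theorem Equiv.nonempty_module_iso {c d : Cocycle X} (e : Equiv c d) :
    Nonempty (c.module ≅ d.module) := by
  obtain ⟨V, hV, hc, hd, h, H⟩ := e
  have hVtop : iSup V = ⊤ :=
    top_le_iff.mp fun x _ => TopologicalSpace.Opens.mem_iSup.mpr ⟨x, hV x⟩
  have hs : ∀ x, IsFrame c.module (V x) (modRes c.module (hc x) (c.moduleFrame x)) :=
    fun x => (c.isFrame_moduleFrame x).mono (hc x)
  have ht : ∀ x, IsFrame d.module (V x)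
      ((h x : Γ(X, V x)) • modRes d.module (hd x) (d.moduleFrame x)) :=
    fun x => ((d.isFrame_moduleFrame x).mono (hd x)).smul (h x).isUnit
  obtain ⟨φ, hφ⟩ := exists_hom_of_frames (M := d.module) hVtop hs
    (fun x => (h x : Γ(X, V x)) • modRes d.module (hd x) (d.moduleFrame x)) fun x y a ha => by
      have hx : V x ⊓ V y ≤ c.nbhd x ⊓ c.nbhd y := inf_le_inf (hc x) (hc y)
      have hx' : V x ⊓ V y ≤ d.nbhd x ⊓ d.nbhd y := inf_le_inf (hd x) (hd y)
      have e1 := congrArg (modRes c.module hx) (c.modRes_moduleFrame x y)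
      rw [modRes_smul, modRes_modRes, modRes_modRes] at e1
      have e2 := congrArg (modRes d.module hx') (d.modRes_moduleFrame x y)
      rw [modRes_smul, modRes_modRes, modRes_modRes] at e2
      rw [modRes_modRes, modRes_modRes] at ha
      have ea := (c.isFrame_moduleFrame x).eq_of_smul_eq _ (e1.symm.trans ha)
      rw [modRes_smul, modRes_smul, modRes_modRes, modRes_modRes, e2, smul_smul, smul_smul, ← ea]
      congr 1
      have := congrArg Units.val (H x y (V x ⊓ V y) inf_le_left inf_le_right)
      simp only [Units.val_mul, gOn, coe_resU] at this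
      rw [mul_comm, this, mul_comm]
  have := isIso_of_frames φ hVtop hs fun x => (hφ x).symm ▸ ht x
  exact ⟨asIso φ⟩

theorem equiv_of_module_iso {c d : Cocycle X} (e : c.module ≅ d.module) : Equiv c d := by
  let V : X → X.Opens := fun x => c.nbhd x ⊓ d.nbhd x
  have hs : ∀ x, IsFrame d.module (V x)
      (modRes d.module inf_le_left (e.hom.app _ (c.moduleFrame x))) :=
    fun x => ((c.isFrame_moduleFrame x).of_iso e).mono inf_le_left
  have ht : ∀ x, IsFrame d.module (V x) (modRes d.module inf_le_right (d.moduleFrame x)) :=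
    fun x => (d.isFrame_moduleFrame x).mono inf_le_right
  have hu : ∀ x, IsUnit ((ht x).coef le_rfl
      (modRes d.module inf_le_left (e.hom.app _ (c.moduleFrame x)))) := fun x =>
    IsUnit.of_mul_eq_one_right ((hs x).coef le_rfl (modRes d.module inf_le_right (d.moduleFrame x)))
      ((ht x).eq_of_smul_eq le_rfl (by
        rw [mul_smul, IsFrame.coef_smul]
        have := (hs x).coef_smul le_rfl (modRes d.module inf_le_right (d.moduleFrame x))
        rw [modRes_self] at this ⊢
        rw [this, one_smul]))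
  refine ⟨V, fun x => ⟨c.mem x, d.mem x⟩, fun x => inf_le_left, fun x => inf_le_right,
    fun x => (hu x).unit, fun x y W hx hy => Units.ext ?_⟩
  have key : ∀ z (hz : W ≤ V z), modRes d.module (hz.trans inf_le_left)
      (e.hom.app _ (c.moduleFrame z)) =
      res hz ((hu z).unit : Γ(X, V z)) • modRes d.module (hz.trans inf_le_right)
        (d.moduleFrame z) :=
    fun z hz => by
      have := congrArg (modRes d.module hz) ((ht z).coef_smul le_rfl
        (modRes d.module inf_le_left (e.hom.app _ (c.moduleFrame z))))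
      rw [modRes_smul, modRes_modRes, modRes_modRes, modRes_modRes] at this
      exact this.symm
  have e1 := congrArg (fun s => e.hom.app _ s)
    (congrArg (modRes c.module (le_inf (hx.trans inf_le_left) (hy.trans inf_le_left)))
      (c.modRes_moduleFrame x y))
  simp only [modRes_smul, modRes_modRes, Scheme.Modules.Hom.app_smul, app_modRes] at e1
  have e2 := congrArg (modRes d.module (le_inf (hx.trans inf_le_right) (hy.trans inf_le_right)))
    (d.modRes_moduleFrame x y)
  rw [modRes_smul, modRes_modRes, modRes_modRes] at e2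
  rw [key x hx, key y hy, e2, smul_smul, smul_smul] at e1
  have := (d.isFrame_moduleFrame x).eq_of_smul_eq (hx.trans inf_le_right) e1
  simp only [gOn, Units.val_mul, coe_resU]
  rw [mul_comm, this, mul_comm]

theorem nonempty_module_iso_iff {c d : Cocycle X} :
    Nonempty (c.module ≅ d.module) ↔ Equiv c d :=
  ⟨fun ⟨e⟩ => equiv_of_module_iso e, Equiv.nonempty_module_iso⟩

theorem nonempty_module_one_iso_unit :
    Nonempty ((Cocycle.one : Cocycle X).module ≅ SheafOfModules.unit X.ringCatSheaf) := by
  let c : Cocycle X := Cocycle.one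
  obtain ⟨φ, hφ⟩ := exists_hom_of_frames (M := (SheafOfModules.unit X.ringCatSheaf : X.Modules))
    c.iSup_nbhd c.isFrame_moduleFrame (fun x => (1 : Γ(X, c.nbhd x))) fun x y a ha => by
      have := (c.isFrame_moduleFrame x).eq_of_smul_eq inf_le_left
        ((c.modRes_moduleFrame x y).symm.trans ha)
      subst this
      show res _ (1 : Γ(X, c.nbhd y)) = (1 : Γ(X, c.nbhd x ⊓ c.nbhd y)) * res _ (1 : Γ(X, c.nbhd x))
      simp only [map_one]
      exact (one_mul _).symm
  have := isIso_of_frames φ c.iSup_nbhd c.isFrame_moduleFrame fun x => by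
    rw [hφ x]; exact isFrame_one _
  exact ⟨asIso φ⟩

end Cocycle

/-- Every invertible module is the module of a cocycle. -/
theorem exists_cocycle_iso {L : X.Modules} (hL : Scheme.Modules.IsInvertible L) :
    ∃ c : Cocycle X, Nonempty (c.module ≅ L) := by
  choose U s hU hs using exists_isFrame hL
  obtain ⟨e, -⟩ := Cocycle.exists_iso_ofFrames U hU hs
  exact ⟨_, ⟨e⟩⟩

/-- The class of an invertible module. -/
def classOf {L : X.Modules} (hL : Scheme.Modules.IsInvertible L) : Pic X :=
  Pic.mk (exists_cocycle_iso hL).choose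

theorem classOf_eq_mk_iff {L : X.Modules} (hL : Scheme.Modules.IsInvertible L) (c : Cocycle X) :
    classOf hL = Pic.mk c ↔ Nonempty (c.module ≅ L) := by
  obtain ⟨e⟩ := (exists_cocycle_iso hL).choose_spec
  rw [classOf, Pic.mk_eq_mk, ← Cocycle.nonempty_module_iso_iff]
  exact ⟨fun ⟨i⟩ => ⟨i.symm ≪≫ e⟩, fun ⟨i⟩ => ⟨e ≪≫ i.symm⟩⟩

theorem classOf_module (c : Cocycle X) : classOf c.isInvertible_module = Pic.mk c :=
  (classOf_eq_mk_iff _ c).mpr ⟨Iso.refl _⟩

theorem classOf_eq_iff {L M : X.Modules} (hL : Scheme.Modules.IsInvertible L)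
    (hM : Scheme.Modules.IsInvertible M) : classOf hL = classOf hM ↔ Nonempty (L ≅ M) := by
  obtain ⟨c, ⟨e⟩⟩ := exists_cocycle_iso hM
  rw [(classOf_eq_mk_iff hM c).mpr ⟨e⟩, classOf_eq_mk_iff]
  exact ⟨fun ⟨i⟩ => ⟨i.symm ≪≫ e⟩, fun ⟨i⟩ => ⟨e ≪≫ i.symm⟩⟩

theorem classOf_pullback (f : X ⟶ Y) {L : Y.Modules} (hL : Scheme.Modules.IsInvertible L) :
    classOf (hL.pullback f) = Pic.map f (classOf hL) := by
  obtain ⟨c, ⟨e⟩⟩ := exists_cocycle_iso hL
  rw [(classOf_eq_mk_iff hL c).mpr ⟨e⟩, Pic.map_mk, classOf_eq_mk_iff]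
  obtain ⟨ψ, hψ, -⟩ := Cocycle.exists_pullLift f c
  exact ⟨(asIso ψ).symm ≪≫ (Scheme.Modules.pullback f).mapIso e⟩

theorem classOf_unit : classOf (Scheme.Modules.isInvertible_unit X) = 1 :=
  (classOf_eq_mk_iff _ _).mpr Cocycle.nonempty_module_one_iso_unit

theorem classOf_eq_one_iff {L : X.Modules} (hL : Scheme.Modules.IsInvertible L) :
    classOf hL = 1 ↔ Nonempty (L ≅ SheafOfModules.unit X.ringCatSheaf) := by
  rw [← classOf_unit, classOf_eq_iff]

theorem classOf_surjective (a : Pic X) :
    ∃ (L : X.Modules) (hL : Scheme.Modules.IsInvertible L), classOf hL = a := by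
  obtain ⟨c, rfl⟩ := Pic.mk_surjective a
  exact ⟨c.module, c.isInvertible_module, classOf_module c⟩

section Rigidified

variable {k : Type u} [Field k] {C : Scheme.{u}} {c : C ⟶ Spec (CommRingCat.of k)}
  {ε : SchemeHomOver (𝟙 (Spec (CommRingCat.of k))) c}

theorem classOf_mem_rigPic {T : Scheme.{u}} {t : T ⟶ Spec (CommRingCat.of k)}
    (M : RigidifiedLineBundle c ε t) : classOf M.isInvertible ∈ rigPic c ε t := by
  rw [rigPic, MonoidHom.mem_ker, ← classOf_pullback, classOf_eq_one_iff]
  exact M.rigidified

variable (c ε) in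
/-- The cocycle class of a class of rigidified line bundles. -/
def toRigPic {T : Scheme.{u}} (t : T ⟶ Spec (CommRingCat.of k)) :
    RigidifiedLineBundle.Classes c ε t → rigPic c ε t :=
  Quotient.lift (fun M => ⟨classOf M.isInvertible, classOf_mem_rigPic M⟩) fun M M' h =>
    Subtype.ext ((classOf_eq_iff M.isInvertible M'.isInvertible).mpr h)

theorem toRigPic_bijective {T : Scheme.{u}} (t : T ⟶ Spec (CommRingCat.of k)) :
    Function.Bijective (toRigPic c ε t) := by
  refine ⟨?_, fun a => ?_⟩
  · rintro ⟨M⟩ ⟨M'⟩ h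
    exact Quotient.sound ((classOf_eq_iff M.isInvertible M'.isInvertible).mp
      (congrArg Subtype.val h))
  · obtain ⟨L, hL, he⟩ := classOf_surjective a.1
    have ha : Pic.map (rigSection c t ε) (classOf hL) = 1 := by
      rw [he]; exact MonoidHom.mem_ker.mp a.2
    rw [← classOf_pullback, classOf_eq_one_iff] at ha
    exact ⟨Quotient.mk _ ⟨L, hL, ha⟩, Subtype.ext he⟩

variable (c ε) in
/-- Classes of rigidified line bundles are the classes trivial along the section. -/
def classesEquiv {T : Scheme.{u}} (t : T ⟶ Spec (CommRingCat.of k)) :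
    RigidifiedLineBundle.Classes c ε t ≃ rigPic c ε t :=
  _root_.Equiv.ofBijective _ (toRigPic_bijective t)

theorem classOf_pullbackAlong {T T' : Scheme.{u}} {t : T ⟶ Spec (CommRingCat.of k)}
    {t' : T' ⟶ Spec (CommRingCat.of k)} (M : RigidifiedLineBundle c ε t)
    (ψ : SchemeHomOver t' t) :
    classOf (M.pullbackAlong ψ).isInvertible =
      Pic.map (baseChangeSnd c ψ) (classOf M.isInvertible) :=
  classOf_pullback _ M.isInvertible

end Rigidified

end FLTAgent.RelPicard
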