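import Mathlib
import Fermat.Agent.RelPicard.Cocycle
import Fermat.Prelude.Def_AlgebraicGeometry_RelativePicardFunctor

/-!
# Frames of sheaves of modules on a scheme

A frame is a section over an open set of which every section over a smaller open set is a unique
multiple. Morphisms and isomorphisms are built from frames on a covering.

Main declarations: `IsFrame`, `coef`, `exists_hom_of_frames`, `isIso_of_frames`.
-/

set_option autoImplicit false

universe u

open CategoryTheory CategoryTheory.Limits AlgebraicGeometry TopologicalSpace Opposite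

noncomputable section

namespace FLTAgent.RelPicard

variable {X Y : Scheme.{u}}

/-- Restriction of sections of a module. -/
def modRes (L : X.Modules) {U V : X.Opens} (h : V ≤ U) : Γ(L, U) →+ Γ(L, V) :=
  (L.presheaf.map (homOfLE h).op).hom

theorem modRes_smul (L : X.Modules) {U V : X.Opens} (h : V ≤ U) (a : Γ(X, U)) (s : Γ(L, U)) :
    modRes L h (a • s) = res h a • modRes L h s :=
  Scheme.Modules.map_smul L (homOfLE h) a s

theorem modRes_modRes (L : X.Modules) {U V W : X.Opens} (h : V ≤ U) (h' : W ≤ V) (s : Γ(L, U)) :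
    modRes L h' (modRes L h s) = modRes L (h'.trans h) s := by
  simp only [modRes]
  rw [← ConcreteCategory.comp_apply, ← Functor.map_comp]
  rfl

theorem modRes_self (L : X.Modules) {U : X.Opens} (h : U ≤ U) (s : Γ(L, U)) : modRes L h s = s := by
  have h' : (homOfLE h).op = 𝟙 (op U) := rfl
  simp only [modRes, h', CategoryTheory.Functor.map_id]
  rfl

theorem app_modRes {L M : X.Modules} (φ : L ⟶ M) {U V : X.Opens} (h : V ≤ U) (s : Γ(L, U)) :
    φ.app V (modRes L h s) = modRes M h (φ.app U s) :=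
  CategoryTheory.congr_fun (φ.mapPresheaf.naturality (homOfLE h).op) s

theorem sec_ext (L : X.Modules) {ι : Type*} {U : X.Opens} (V : ι → X.Opens) (hV : ∀ i, V i ≤ U)
    (hcov : U ≤ iSup V) {s t : Γ(L, U)} (h : ∀ i, modRes L (hV i) s = modRes L (hV i) t) : s = t :=
  TopCat.Sheaf.eq_of_locally_eq' ⟨L.presheaf, L.isSheaf⟩ V U (fun i => homOfLE (hV i)) hcov s t h

theorem sec_glue (L : X.Modules) {ι : Type*} {U : X.Opens} (V : ι → X.Opens) (hV : ∀ i, V i ≤ U)
    (hcov : U ≤ iSup V) (s : ∀ i, Γ(L, V i))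
    (h : ∀ i j, modRes L (inf_le_left : V i ⊓ V j ≤ V i) (s i) =
      modRes L (inf_le_right : V i ⊓ V j ≤ V j) (s j)) :
    ∃! t : Γ(L, U), ∀ i, modRes L (hV i) t = s i :=
  TopCat.Sheaf.existsUnique_gluing' ⟨L.presheaf, L.isSheaf⟩ V U (fun i => homOfLE (hV i)) hcov s h

theorem le_iSup_inf {ι : Type*} {U : ι → X.Opens} (hU : iSup U = ⊤) (V : X.Opens) :
    V ≤ ⨆ i, V ⊓ U i := by
  rw [← inf_iSup_eq, hU, inf_top_eq]

/-- A section generating freely on all smaller open sets. -/
def IsFrame (L : X.Modules) (U : X.Opens) (s : Γ(L, U)) : Prop :=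
  ∀ (V : X.Opens) (h : V ≤ U), Function.Bijective fun a : Γ(X, V) => a • modRes L h s

namespace IsFrame

variable {L M : X.Modules} {U : X.Opens} {s : Γ(L, U)}

theorem mono (hs : IsFrame L U s) {V : X.Opens} (h : V ≤ U) : IsFrame L V (modRes L h s) := by
  intro W hW
  simp only [modRes_modRes]
  exact hs W _

/-- The coordinate with respect to a frame. -/
def coef (hs : IsFrame L U s) {V : X.Opens} (h : V ≤ U) (σ : Γ(L, V)) : Γ(X, V) :=
  (Equiv.ofBijective _ (hs V h)).symm σ

theorem coef_smul (hs : IsFrame L U s) {V : X.Opens} (h : V ≤ U) (σ : Γ(L, V)) :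
    hs.coef h σ • modRes L h s = σ :=
  (Equiv.ofBijective _ (hs V h)).apply_symm_apply σ

theorem eq_of_smul_eq (hs : IsFrame L U s) {V : X.Opens} (h : V ≤ U) {a b : Γ(X, V)}
    (hab : a • modRes L h s = b • modRes L h s) : a = b :=
  (hs V h).injective hab

theorem smul (hs : IsFrame L U s) {a : Γ(X, U)} (ha : IsUnit a) : IsFrame L U (a • s) := by
  intro V h
  simp only [modRes_smul, smul_smul]
  obtain ⟨v, hv⟩ := ha.map (res h)
  rw [← hv]
  exact (hs V h).comp v.mulRight_bijective

theorem of_iso (hs : IsFrame L U s) (e : L ≅ M) : IsFrame M U (e.hom.app U s) := by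
  intro V h
  have : (fun a : Γ(X, V) => a • modRes M h (e.hom.app U s)) =
      (fun σ => e.hom.app V σ) ∘ fun a : Γ(X, V) => a • modRes L h s := by
    funext a
    simp only [Function.comp_apply, Scheme.Modules.Hom.app_smul, app_modRes]
  rw [this]
  exact ((ConcreteCategory.bijective_of_isIso (e.hom.app V))).comp (hs V h)

end IsFrame

/-- The unit module has the frame `1`. -/
theorem isFrame_one (U : X.Opens) :
    IsFrame (SheafOfModules.unit X.ringCatSheaf : X.Modules) U (1 : Γ(X, U)) := by
  intro V h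
  have : (fun a : Γ(X, V) => a • modRes (SheafOfModules.unit X.ringCatSheaf : X.Modules) h
      (1 : Γ(X, U))) = id := by
    funext a
    show a * res h 1 = a
    rw [map_one, mul_one]
  rw [this]
  exact Function.bijective_id

section Hom

variable {L M : X.Modules} {ι : Type*} {U : ι → X.Opens} {s : ∀ i, Γ(L, U i)}

/-- A morphism out of a module with frames, given on the frames. -/
theorem exists_hom_of_frames (hU : iSup U = ⊤) (hs : ∀ i, IsFrame L (U i) (s i))
    (t : ∀ i, Γ(M, U i))
    (hcompat : ∀ i j (a : Γ(X, U i ⊓ U j)),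
      modRes L inf_le_right (s j) = a • modRes L inf_le_left (s i) →
      modRes M inf_le_right (t j) = a • modRes M inf_le_left (t i)) :
    ∃ φ : L ⟶ M, ∀ i, φ.app (U i) (s i) = t i := by
  have hex : ∀ (V : X.Opens) (σ : Γ(L, V)), ∃! τ : Γ(M, V), ∀ i,
      modRes M (inf_le_left : V ⊓ U i ≤ V) τ =
        (hs i).coef inf_le_right (modRes L (inf_le_left : V ⊓ U i ≤ V) σ) •
          modRes M (inf_le_right : V ⊓ U i ≤ U i) (t i) := by
    intro V σ
    refine sec_glue M (fun i => V ⊓ U i) (fun i => inf_le_left) (le_iSup_inf hU V) _ fun i j => ?_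
    set W := V ⊓ U i ⊓ (V ⊓ U j)
    have hWi : W ≤ U i := inf_le_left.trans inf_le_right
    have hWj : W ≤ U j := inf_le_right.trans inf_le_right
    have hW : W ≤ U i ⊓ U j := le_inf hWi hWj
    set g := (hs i).coef inf_le_left (modRes L (inf_le_right : U i ⊓ U j ≤ U j) (s j))
    have hg := ((hs i).coef_smul inf_le_left (modRes L (inf_le_right : U i ⊓ U j ≤ U j) (s j))).symm
    have hgt := congrArg (modRes M hW) (hcompat i j g hg)
    have hgs := congrArg (modRes L hW) hg
    rw [modRes_smul, modRes_modRes, modRes_modRes] at hgt hgs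
    rw [modRes_smul, modRes_smul, modRes_modRes, modRes_modRes, hgt, smul_smul]
    congr 1
    refine (hs i).eq_of_smul_eq hWi ?_
    rw [← smul_smul, ← hgs]
    have e1 := congrArg (modRes L (inf_le_left : W ≤ V ⊓ U i))
      ((hs i).coef_smul inf_le_right (modRes L (inf_le_left : V ⊓ U i ≤ V) σ))
    have e2 := congrArg (modRes L (inf_le_right : W ≤ V ⊓ U j))
      ((hs j).coef_smul inf_le_right (modRes L (inf_le_left : V ⊓ U j ≤ V) σ))
    rw [modRes_smul, modRes_modRes, modRes_modRes] at e1 e2
    exact e1.trans e2.symm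
  choose F hF hFu using hex
  have hadd : ∀ (V : X.Opens) (σ σ' : Γ(L, V)), F V (σ + σ') = F V σ + F V σ' := by
    intro V σ σ'
    refine (hFu V _ _ fun i => ?_).symm
    rw [map_add, hF V σ i, hF V σ' i, ← add_smul]
    congr 1
    refine (hs i).eq_of_smul_eq inf_le_right ?_
    rw [add_smul, IsFrame.coef_smul, IsFrame.coef_smul, IsFrame.coef_smul, map_add]
  have hsmul : ∀ (V : X.Opens) (a : Γ(X, V)) (σ : Γ(L, V)), F V (a • σ) = a • F V σ := by
    intro V a σ
    refine (hFu V _ _ fun i => ?_).symm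
    rw [modRes_smul, hF V σ i, smul_smul]
    congr 1
    refine (hs i).eq_of_smul_eq inf_le_right ?_
    rw [mul_smul, IsFrame.coef_smul, IsFrame.coef_smul, modRes_smul]
  have hnat : ∀ (V V' : X.Opens) (h : V' ≤ V) (σ : Γ(L, V)),
      F V' (modRes L h σ) = modRes M h (F V σ) := by
    intro V V' h σ
    refine (hFu V' _ _ fun i => ?_).symm
    have hle : V' ⊓ U i ≤ V ⊓ U i := inf_le_inf_right _ h
    have e1 := congrArg (modRes M hle) (hF V σ i)
    rw [modRes_smul, modRes_modRes, modRes_modRes] at e1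
    rw [modRes_modRes, e1]
    congr 1
    refine (hs i).eq_of_smul_eq inf_le_right ?_
    rw [IsFrame.coef_smul]
    have e2 := congrArg (modRes L hle)
      ((hs i).coef_smul inf_le_right (modRes L (inf_le_left : V ⊓ U i ≤ V) σ))
    rw [modRes_smul, modRes_modRes, modRes_modRes] at e2
    rw [e2, modRes_modRes]
  let ψ : L.val.presheaf ⟶ M.val.presheaf :=
    { app := fun V => AddCommGrpCat.ofHom (AddMonoidHom.mk' (F V.unop) (hadd V.unop))
      naturality := fun V V' f => by
        ext σ
        exact hnat V.unop V'.unop f.unop.le σ }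
  refine ⟨⟨PresheafOfModules.homMk ψ fun V r m => hsmul V.unop r m⟩, fun i => ?_⟩
  show F (U i) (s i) = t i
  refine sec_ext M (fun j => U i ⊓ U j) (fun j => inf_le_left) (le_iSup_inf hU _) fun j => ?_
  rw [hF]
  set g := (hs j).coef inf_le_right (modRes L (inf_le_left : U i ⊓ U j ≤ U i) (s i))
  have hle : U j ⊓ U i ≤ U i ⊓ U j := le_of_eq (inf_comm _ _)
  have hg := congrArg (modRes L hle)
    ((hs j).coef_smul inf_le_right (modRes L (inf_le_left : U i ⊓ U j ≤ U i) (s i)))
  rw [modRes_smul, modRes_modRes, modRes_modRes] at hg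
  have := congrArg (modRes M (le_of_eq (inf_comm _ _) : U i ⊓ U j ≤ U j ⊓ U i))
    (hcompat j i _ hg.symm)
  rw [modRes_smul, modRes_modRes, modRes_modRes, res_res, res_self] at this
  exact this.symm

/-- A morphism sending frames on a covering to frames is an isomorphism. -/
theorem isIso_of_frames (φ : L ⟶ M) (hU : iSup U = ⊤) (hs : ∀ i, IsFrame L (U i) (s i))
    (ht : ∀ i, IsFrame M (U i) (φ.app (U i) (s i))) : IsIso φ := by
  have hinj : ∀ V : X.Opens, Function.Injective (φ.app V) := by
    intro V σ σ' hσ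
    refine sec_ext L (fun i => V ⊓ U i) (fun i => inf_le_left) (le_iSup_inf hU V) fun i => ?_
    have e := congrArg (modRes M (inf_le_left : V ⊓ U i ≤ V)) hσ
    rw [← app_modRes, ← app_modRes,
      ← (hs i).coef_smul inf_le_right (modRes L (inf_le_left : V ⊓ U i ≤ V) σ),
      ← (hs i).coef_smul inf_le_right (modRes L (inf_le_left : V ⊓ U i ≤ V) σ'),
      Scheme.Modules.Hom.app_smul, Scheme.Modules.Hom.app_smul, app_modRes] at e
    rw [← (hs i).coef_smul inf_le_right (modRes L (inf_le_left : V ⊓ U i ≤ V) σ),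
      ← (hs i).coef_smul inf_le_right (modRes L (inf_le_left : V ⊓ U i ≤ V) σ'),
      (ht i).eq_of_smul_eq inf_le_right e]
  refine Scheme.Modules.Hom.isIso_iff_isIso_app.mpr fun V => ?_
  refine (ConcreteCategory.isIso_iff_bijective _).mpr ⟨hinj V, fun τ => ?_⟩
  let σ : ∀ i, Γ(L, V ⊓ U i) := fun i =>
    (ht i).coef inf_le_right (modRes M (inf_le_left : V ⊓ U i ≤ V) τ) •
      modRes L (inf_le_right : V ⊓ U i ≤ U i) (s i)
  have hσ : ∀ i, φ.app _ (σ i) = modRes M (inf_le_left : V ⊓ U i ≤ V) τ := fun i => by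
    simp only [σ, Scheme.Modules.Hom.app_smul, app_modRes]
    exact (ht i).coef_smul _ _
  obtain ⟨t, ht', -⟩ := sec_glue L (fun i => V ⊓ U i) (fun i => inf_le_left) (le_iSup_inf hU V) σ
    fun i j => hinj _ (by rw [app_modRes, app_modRes, hσ, hσ, modRes_modRes, modRes_modRes])
  refine ⟨t, sec_ext M (fun i => V ⊓ U i) (fun i => inf_le_left) (le_iSup_inf hU V) fun i => ?_⟩
  rw [← app_modRes, ht', hσ]

end Hom

end FLTAgent.RelPicard
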