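import Fermat.Agent.RelPicard.Bridge.Invertible

/-!
# The module glued from a cocycle, and frames of pullbacks

`Cocycle.module` is the invertible sheaf of modules of a cocycle, with frame `moduleFrame` at each
point; it commutes with pullback (`exists_pullLift`), and a module with frames around every point
is the module of a cocycle (`ofFrames`, `exists_iso_ofFrames`).  Used by `Bridge.Classes`.
-/

set_option autoImplicit false

universe u

open CategoryTheory CategoryTheory.Limits AlgebraicGeometry TopologicalSpace Opposite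

noncomputable section

namespace FLTAgent.RelPicard

variable {X Y : Scheme.{u}}

namespace Cocycle

variable (c : Cocycle X)

/-- The abelian presheaf of sections of a cocycle. -/
def presheafAb : TopCat.Presheaf Ab X where
  obj W := AddCommGrpCat.of (c.Sec W.unop)
  map f := AddCommGrpCat.ofHom (c.resSec f.unop.le)
  map_id W := by
    ext a x
    exact res_self _ _
  map_comp f f' := by
    ext a x
    exact (res_res _ _ _).symm

theorem isSheaf_presheafAb : c.presheafAb.IsSheaf := by
  rw [TopCat.Presheaf.isSheaf_iff_isSheafUniqueGluing]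
  intro κ W sf hsf
  have hcov : ∀ x, iSup W ⊓ c.nbhd x ≤ ⨆ k, W k ⊓ c.nbhd x := fun x => by rw [← iSup_inf_eq]
  have hloc : ∀ x, ∃! b : Γ(X, iSup W ⊓ c.nbhd x), ∀ k,
      res (inf_le_inf_right _ (le_iSup W k)) b = (sf k).1 x := fun x => by
    refine TopCat.Sheaf.existsUnique_gluing' X.sheaf (fun k => W k ⊓ c.nbhd x) _
      (fun k => homOfLE (inf_le_inf_right _ (le_iSup W k))) (hcov x) _ fun p q => ?_
    have h := congrArg (fun s : c.Sec (W p ⊓ W q) => s.1 x) (hsf p q)
    have hle : W p ⊓ c.nbhd x ⊓ (W q ⊓ c.nbhd x) ≤ W p ⊓ W q ⊓ c.nbhd x :=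
      le_inf (inf_le_inf inf_le_left inf_le_left) (inf_le_left.trans inf_le_right)
    have h' := congrArg (res hle) h
    change res hle (res _ ((sf p).1 x)) = res hle (res _ ((sf q).1 x)) at h'
    rw [res_res, res_res] at h'
    exact h'
  choose b hb hbu using hloc
  refine ⟨⟨b, fun x y V hV hx hy => ?_⟩, fun k => Subtype.ext (funext fun x => hb x k),
    fun d hd => Subtype.ext (funext fun x => hbu x _ fun k =>
      congrArg (fun s : c.Sec (W k) => s.1 x) (hd k))⟩
  refine TopCat.Sheaf.eq_of_locally_eq' X.sheaf (fun k => W k ⊓ V) V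
    (fun k => homOfLE inf_le_right) ?_ _ _ fun k => ?_
  · rw [← iSup_inf_eq]
    exact le_inf hV le_rfl
  change res inf_le_right (res (le_inf hV hx) (b x)) =
    res inf_le_right ((c.gOn x y hx hy : Γ(X, V)ˣ).val * res (le_inf hV hy) (b y))
  have hx' : W k ⊓ V ≤ W k ⊓ c.nbhd x := inf_le_inf_left _ hx
  have hy' : W k ⊓ V ≤ W k ⊓ c.nbhd y := inf_le_inf_left _ hy
  have e1 := congrArg (res hx') (hb x k)
  have e2 := congrArg (res hy') (hb y k)
  have e3 := (sf k).2 x y (W k ⊓ V) inf_le_left (inf_le_right.trans hx) (inf_le_right.trans hy)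
  rw [res_res] at e1 e2
  rw [map_mul, res_res, res_res, e1, e2, e3, ← coe_resU, resU_gOn]

instance (W : (Opens X)ᵒᵖ) : Module (X.ringCatSheaf.obj.obj W) (c.presheafAb.obj W) :=
  inferInstanceAs (Module Γ(X, W.unop) (c.Sec W.unop))

/-- The line bundle of a cocycle; its sections over `W` are `c.Sec W`. -/
def module : X.Modules where
  val := PresheafOfModules.ofPresheaf c.presheafAb fun _ _ f r a => c.resSec_smul f.unop.le r a
  isSheaf := c.isSheaf_presheafAb

/-- The frame of the line bundle at a point. -/
def moduleFrame (x : X) : Γ(c.module, c.nbhd x) := c.frame x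

theorem isFrame_moduleFrame (x : X) : IsFrame c.module (c.nbhd x) (c.moduleFrame x) := by
  intro V h
  have hVx : V ≤ V ⊓ c.nbhd x := le_inf le_rfl h
  have key : ∀ (a : Γ(X, V)) (z : X),
      (show c.Sec V from a • modRes c.module h (c.moduleFrame x)).1 z =
        res inf_le_left a *
          (c.gOn z x (W := V ⊓ c.nbhd z) inf_le_right (inf_le_left.trans h)).val := by
    intro a z
    show res inf_le_left a * res (inf_le_inf_right _ h)
      (c.gOn z x (W := c.nbhd x ⊓ c.nbhd z) inf_le_right inf_le_left).val = _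
    rw [← coe_resU, resU_gOn]
  refine ⟨fun a b hab => ?_, fun σ => ?_⟩
  · have := congrArg (res hVx) (congrArg (fun s : c.Sec V => s.1 x) hab)
    dsimp only at this
    erw [key, key] at this
    simpa only [map_mul, ← coe_resU, resU_gOn, gOn_self, Units.val_one, mul_one, res_res, res_self]
      using this
  · let s : c.Sec V := σ
    refine ⟨res hVx (s.1 x), ?_⟩
    refine Subtype.ext (funext fun z => ?_)
    erw [key]
    have e := s.2 z x (V ⊓ c.nbhd z) inf_le_left inf_le_right (inf_le_left.trans h)
    rw [res_self] at e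
    rw [res_res, mul_comm, ← e]

theorem modRes_moduleFrame (x y : X) :
    modRes c.module inf_le_right (c.moduleFrame y) =
      (c.g x y : Γ(X, c.nbhd x ⊓ c.nbhd y)) • modRes c.module inf_le_left (c.moduleFrame x) := by
  refine Subtype.ext (funext fun z => ?_)
  show res _ (c.gOn z y (W := c.nbhd y ⊓ c.nbhd z) inf_le_right inf_le_left).val =
    res inf_le_left (c.g x y : Γ(X, c.nbhd x ⊓ c.nbhd y)) *
      res _ (c.gOn z x (W := c.nbhd x ⊓ c.nbhd z) inf_le_right inf_le_left).val
  rw [← coe_resU, ← coe_resU, ← coe_resU, resU_gOn, resU_gOn, ← Units.val_mul, mul_comm]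
  exact congrArg Units.val
    (c.gOn_mul z x y inf_le_right (inf_le_left.trans inf_le_left)
      (inf_le_left.trans inf_le_right)).symm

theorem iSup_nbhd : iSup c.nbhd = ⊤ :=
  top_le_iff.mp fun x _ => TopologicalSpace.Opens.mem_iSup.mpr ⟨x, c.mem x⟩

theorem isInvertible_module : Scheme.Modules.IsInvertible c.module :=
  isInvertible_of_frames fun x => ⟨c.nbhd x, c.moduleFrame x, c.mem x, c.isFrame_moduleFrame x⟩

/-- The comparison map with the line bundle of the pulled back cocycle. -/
theorem exists_pullLift (f : X ⟶ Y) (c : Cocycle Y) :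
    ∃ ψ : (Scheme.Modules.pullback f).obj c.module ⟶ (c.pullback f).module, IsIso ψ ∧
      ∀ (W : Y.Opens) (s : c.Sec W),
        ψ.app (f ⁻¹ᵁ W) (unitSec f c.module (show Γ(c.module, W) from s)) =
          (show Γ((c.pullback f).module, f ⁻¹ᵁ W) from c.pullSec f le_rfl s) := by
  let φv : c.module.val.presheaf ⟶
      ((Scheme.Modules.pushforward f).obj (c.pullback f).module).val.presheaf :=
    { app := fun W => AddCommGrpCat.ofHom (c.pullSec f (W := W.unop) (W' := f ⁻¹ᵁ W.unop) le_rfl)
      naturality := fun W W' i => by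
        ext s
        refine Subtype.ext (funext fun x => ?_)
        show pull f _ (res (inf_le_inf_right _ i.unop.le) (s.1 (f.base x))) =
          res (inf_le_inf_right _ (Scheme.Hom.preimage_mono f i.unop.le)) (pull f _ (s.1 _))
        rw [pull_res, res_pull] }
  let φ : c.module ⟶ (Scheme.Modules.pushforward f).obj (c.pullback f).module :=
    ⟨PresheafOfModules.homMk φv fun W r s => (c.pullSec_smul f le_rfl r s).trans (by
      exact congrArg (· • _) (congrArg (fun F => F r) (show
        (pull f (le_refl (f ⁻¹ᵁ W.unop)) : Γ(Y, W.unop) →+* Γ(X, f ⁻¹ᵁ W.unop)) =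
          (f.app W.unop).hom from congrArg CommRingCat.Hom.hom f.appLE_eq_app)))⟩
  have hψ : ∀ (W : Y.Opens) (s : c.Sec W),
      (pullLift f φ).app (f ⁻¹ᵁ W) (unitSec f c.module (show Γ(c.module, W) from s)) =
        (show Γ((c.pullback f).module, f ⁻¹ᵁ W) from c.pullSec f le_rfl s) :=
    fun W s => pullLift_app_unitSec f φ _
  have hfr : ∀ x, (pullLift f φ).app (f ⁻¹ᵁ c.nbhd (f.base x))
      (unitSec f c.module (c.moduleFrame (f.base x))) = (c.pullback f).moduleFrame x := fun x => by
    refine (hψ _ (c.frame (f.base x))).trans ?_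
    refine Subtype.ext (funext fun z => ?_)
    show pull f _ (c.gOn (f.base z) (f.base x)
        (W := c.nbhd (f.base x) ⊓ c.nbhd (f.base z)) inf_le_right inf_le_left).val =
      ((c.pullback f).gOn z x
        (W := (c.pullback f).nbhd x ⊓ (c.pullback f).nbhd z) inf_le_right inf_le_left).val
    rw [gOn_pullback f c z x (W₀ := c.nbhd (f.base x) ⊓ c.nbhd (f.base z))
      (le_preimage_inf f _ _) _ _ inf_le_right inf_le_left]
    rfl
  exact ⟨pullLift f φ, isIso_of_mem_frames _ (c.isInvertible_module.pullback f)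
    (c.pullback f).iSup_nbhd (fun x => unitSec f c.module (c.moduleFrame (f.base x)))
    fun x => (hfr x).symm ▸ (c.pullback f).isFrame_moduleFrame x, hψ⟩

/-- The cocycle of frames around every point. -/
def ofFrames {L : X.Modules} (U : X → X.Opens) (hU : ∀ x, x ∈ U x) {s : ∀ x, Γ(L, U x)}
    (hs : ∀ x, IsFrame L (U x) (s x)) : Cocycle X where
  nbhd := U
  mem := hU
  g x y :=
    { val := (hs x).coef inf_le_left (modRes L inf_le_right (s y))
      inv := (hs y).coef inf_le_right (modRes L inf_le_left (s x))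
      val_inv := (hs y).eq_of_smul_eq inf_le_right (by
        rw [mul_smul, IsFrame.coef_smul, IsFrame.coef_smul, one_smul])
      inv_val := (hs x).eq_of_smul_eq inf_le_left (by
        rw [mul_smul, IsFrame.coef_smul, IsFrame.coef_smul, one_smul]) }
  cocycle x y z W hx hy hz := Units.ext ((hs x).eq_of_smul_eq hx (by
    have e1 := congrArg (modRes L (le_inf hx hz))
      ((hs x).coef_smul inf_le_left (modRes L (inf_le_right : U x ⊓ U z ≤ U z) (s z)))
    have e2 := congrArg (modRes L (le_inf hx hy))
      ((hs x).coef_smul inf_le_left (modRes L (inf_le_right : U x ⊓ U y ≤ U y) (s y)))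
    have e3 := congrArg (modRes L (le_inf hy hz))
      ((hs y).coef_smul inf_le_left (modRes L (inf_le_right : U y ⊓ U z ≤ U z) (s z)))
    rw [modRes_smul, modRes_modRes, modRes_modRes] at e1 e2 e3
    simp only [Units.val_mul, coe_resU]
    rw [mul_comm, mul_smul, e2, e3]
    exact e1.symm))

theorem exists_iso_ofFrames {L : X.Modules} (U : X → X.Opens) (hU : ∀ x, x ∈ U x)
    {s : ∀ x, Γ(L, U x)} (hs : ∀ x, IsFrame L (U x) (s x)) :
    ∃ e : (ofFrames U hU hs).module ≅ L,
      ∀ x, e.hom.app (U x) ((ofFrames U hU hs).moduleFrame x) = s x := by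
  set c := ofFrames U hU hs
  obtain ⟨φ, hφ⟩ := exists_hom_of_frames (M := L) c.iSup_nbhd c.isFrame_moduleFrame s
    fun x y a ha => by
      have hg := (c.isFrame_moduleFrame x).eq_of_smul_eq inf_le_left
        ((c.modRes_moduleFrame x y).symm.trans ha)
      subst hg
      exact ((hs x).coef_smul _ _).symm
  have : IsIso φ := isIso_of_frames φ c.iSup_nbhd c.isFrame_moduleFrame fun x => (hφ x).symm ▸ hs x
  exact ⟨asIso φ, hφ⟩

end Cocycle

end FLTAgent.RelPicard
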