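import Fermat.Agent.RelPicard.Bridge.Frames

/-!
# Invertible modules are the modules with frames on a covering; frames pull back

`exists_isFrame` and `isInvertible_of_frames` are the two directions; `isIso_of_mem_frames`
detects isomorphisms on frames, and `pullLift` maps out of a pullback with `unitSec` the pullback
of a section.  Used by `Bridge.Glue`.
-/

set_option autoImplicit false

universe u

open CategoryTheory CategoryTheory.Limits AlgebraicGeometry TopologicalSpace Opposite

noncomputable section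

namespace FLTAgent.RelPicard

variable {X Y : Scheme.{u}}

theorem isFrame_image {L : X.Modules} {U : Scheme.{u}} (f : U ⟶ X) [IsOpenImmersion f]
    (s : Γ(L.restrict f, ⊤)) :
    IsFrame (L.restrict f) ⊤ s ↔ IsFrame L (f ''ᵁ ⊤) s := by
  constructor
  · intro hs V h
    obtain ⟨W, rfl⟩ : ∃ W : U.Opens, f ''ᵁ W = V :=
      ⟨f ⁻¹ᵁ V, by
        rw [Scheme.Hom.image_preimage_eq_opensRange_inf]
        exact inf_eq_right.mpr (h.trans (le_of_eq (Scheme.Hom.image_top_eq_opensRange f)))⟩
    have hb := hs W le_top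
    refine ⟨fun a b hab => ?_, fun σ => ?_⟩
    · have := hb.injective (a₁ := (f.appIso W).hom a) (a₂ := (f.appIso W).hom b) ?_
      · simpa using congrArg (f.appIso W).inv this
      · show (f.appIso W).inv ((f.appIso W).hom a) • modRes L h s =
          (f.appIso W).inv ((f.appIso W).hom b) • modRes L h s
        rw [Iso.hom_inv_id_apply, Iso.hom_inv_id_apply]
        exact hab
    · obtain ⟨a, ha⟩ := hb.surjective σ
      exact ⟨(f.appIso W).inv a, ha⟩
  · intro hs W _
    have hb := hs (f ''ᵁ W) (Scheme.Hom.image_mono _ le_top)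
    refine ⟨fun a b hab => ?_, fun σ => ?_⟩
    · have := hb.injective (a₁ := (f.appIso W).inv a) (a₂ := (f.appIso W).inv b) hab
      simpa using congrArg (f.appIso W).hom this
    · obtain ⟨a, ha⟩ := hb.surjective σ
      refine ⟨(f.appIso W).hom a, ?_⟩
      show ((f.appIso W).inv ((f.appIso W).hom a) •
        (modRes L (Scheme.Hom.image_mono f le_top) s : Γ(L, f ''ᵁ W)) : Γ(L, f ''ᵁ W)) = σ
      rw [Iso.hom_inv_id_apply]
      exact ha

/-- An invertible module has a frame near every point. -/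
theorem exists_isFrame {L : X.Modules} (hL : Scheme.Modules.IsInvertible L) (x : X) :
    ∃ (U : X.Opens) (s : Γ(L, U)), x ∈ U ∧ IsFrame L U s := by
  obtain ⟨U, hx, ⟨e⟩⟩ := hL.1 x
  let e' : L.restrict U.ι ≅ SheafOfModules.unit U.toScheme.ringCatSheaf :=
    (Scheme.Modules.restrictFunctorIsoPullback U.ι).app L ≪≫ e
  have h := (isFrame_one (X := U.toScheme) ⊤).of_iso e'.symm
  refine ⟨U.ι ''ᵁ ⊤, e'.inv.app ⊤ (1 : Γ(U.toScheme, ⊤)), ?_, (isFrame_image U.ι _).mp h⟩
  rw [Scheme.Opens.ι_image_top]
  exact hx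

/-- A module with frames on a covering is invertible. -/
theorem isInvertible_of_frames {L : X.Modules}
    (h : ∀ x : X, ∃ (U : X.Opens) (s : Γ(L, U)), x ∈ U ∧ IsFrame L U s) :
    Scheme.Modules.IsInvertible L := by
  refine ⟨fun x => ?_⟩
  obtain ⟨U, s, hx, hs⟩ := h x
  refine ⟨U, hx, ⟨?_⟩⟩
  let t : Γ(L.restrict U.ι, ⊤) := modRes L (le_of_eq (Scheme.Opens.ι_image_top U)) s
  have ht : IsFrame (L.restrict U.ι) ⊤ t := (isFrame_image U.ι t).mpr (hs.mono _)
  let hex := exists_hom_of_frames (L := SheafOfModules.unit U.toScheme.ringCatSheaf)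
    (M := L.restrict U.ι) (ι := Unit) (U := fun _ => ⊤) (s := fun _ => (1 : Γ(U.toScheme, ⊤)))
    iSup_const (fun _ => isFrame_one ⊤) (fun _ => t) (fun i j a ha => by
      have e : a * res inf_le_left (1 : Γ(U.toScheme, ⊤)) =
          res inf_le_right (1 : Γ(U.toScheme, ⊤)) := ha.symm
      rw [map_one, mul_one] at e
      subst e
      rw [one_smul])
  haveI : IsIso hex.choose :=
    isIso_of_frames (L := SheafOfModules.unit U.toScheme.ringCatSheaf) (ι := Unit)
      (U := fun _ => ⊤) (s := fun _ => (1 : Γ(U.toScheme, ⊤))) hex.choose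
      iSup_const (fun _ => isFrame_one ⊤) fun i => by rw [hex.choose_spec i]; exact ht
  exact ((Scheme.Modules.restrictFunctorIsoPullback U.ι).app L).symm ≪≫
    (asIso hex.choose).symm

/-- A morphism of invertible modules whose image contains frames on a covering is an
isomorphism. -/
theorem isIso_of_mem_frames {L M : X.Modules} (φ : L ⟶ M) (hL : Scheme.Modules.IsInvertible L)
    {ι : Type*} {U : ι → X.Opens} (hU : iSup U = ⊤) (σ : ∀ i, Γ(L, U i))
    (ht : ∀ i, IsFrame M (U i) (φ.app (U i) (σ i))) : IsIso φ := by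
  have key : ∀ x : X, ∃ (W : X.Opens) (e : Γ(L, W)), x ∈ W ∧ IsFrame L W e ∧
      IsFrame M W (φ.app W e) := by
    intro x
    obtain ⟨i, hi⟩ := TopologicalSpace.Opens.mem_iSup.mp (hU ▸ TopologicalSpace.Opens.mem_top x :
      x ∈ iSup U)
    obtain ⟨W, e, hxW, he⟩ := exists_isFrame hL x
    refine ⟨W ⊓ U i, modRes L inf_le_left e, ⟨hxW, hi⟩, he.mono _, ?_⟩
    have hf : IsFrame M (W ⊓ U i) (modRes M inf_le_right (φ.app (U i) (σ i))) := (ht i).mono _
    have h1 := congrArg (φ.app _) (he.coef_smul inf_le_left (modRes L inf_le_right (σ i) :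
      Γ(L, W ⊓ U i)))
    set a := he.coef inf_le_left (modRes L inf_le_right (σ i) : Γ(L, W ⊓ U i))
    rw [Scheme.Modules.Hom.app_smul, app_modRes φ inf_le_right] at h1
    have h2 := hf.coef_smul le_rfl (φ.app _ (modRes L inf_le_left e))
    set b := hf.coef le_rfl (φ.app _ (modRes L inf_le_left e))
    rw [modRes_self] at h2
    have hab : a * b = 1 := hf.eq_of_smul_eq le_rfl (by
      rw [modRes_self, mul_smul, h2, h1, one_smul])
    rw [← h2]
    exact hf.smul (IsUnit.of_mul_eq_one_right a hab)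
  choose W e hxW he hφe using key
  exact isIso_of_frames φ (iSup_eq_top_of_mem hxW) he hφe
where
  iSup_eq_top_of_mem {W : X → X.Opens} (h : ∀ x, x ∈ W x) : iSup W = ⊤ :=
    top_le_iff.mp fun x _ => TopologicalSpace.Opens.mem_iSup.mpr ⟨x, h x⟩

/-- The image of a section in the pullback. -/
def unitSec (f : X ⟶ Y) (L : Y.Modules) {U : Y.Opens} (s : Γ(L, U)) :
    Γ((Scheme.Modules.pullback f).obj L, f ⁻¹ᵁ U) :=
  ((Scheme.Modules.pullbackPushforwardAdjunction f).unit.app L).app U s

/-- Transport of morphisms out of a pullback. -/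
def pullLift (f : X ⟶ Y) {L : Y.Modules} {M : X.Modules}
    (φ : L ⟶ (Scheme.Modules.pushforward f).obj M) : (Scheme.Modules.pullback f).obj L ⟶ M :=
  ((Scheme.Modules.pullbackPushforwardAdjunction f).homEquiv L M).symm φ

theorem pullLift_app_unitSec (f : X ⟶ Y) {L : Y.Modules} {M : X.Modules}
    (φ : L ⟶ (Scheme.Modules.pushforward f).obj M) {U : Y.Opens} (s : Γ(L, U)) :
    (pullLift f φ).app (f ⁻¹ᵁ U) (unitSec f L s) = φ.app U s := by
  have h : (Scheme.Modules.pullbackPushforwardAdjunction f).unit.app L ≫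
      (Scheme.Modules.pushforward f).map (pullLift f φ) = φ := by
    refine (Adjunction.homEquiv_unit _ L M (pullLift f φ)).symm.trans ?_
    exact Equiv.apply_symm_apply _ φ
  exact CategoryTheory.congr_fun (congrArg (fun ψ => Scheme.Modules.Hom.app ψ U) h) s

end FLTAgent.RelPicard
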